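import Mathlib
import Fermat.Agent.LT.Descent.GlueAbs
import Fermat.Agent.LT.Descent.ClassesBasic
import Fermat.Agent.LT.Descent.KerPair
import Fermat.Agent.LT.Descent.ClassesCentral
import Fermat.Agent.LT.Descent.NonSplitCube

/-!
# The cubic descent at deep levels: setting, local kernels at the bad places, systems of kernels

`Setup` fixes the fields, the automorphism and the finite set of bad places, `Ctx` adds levels which
are maximal away from the bad places, `Bad` is what is used of the kernels at the bad places, and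
`Sys` is a pair of product kernels with arbitrary components at the split places.
-/

set_option autoImplicit false

noncomputable section

open Matrix IsDedekindDomain NumberField Filter MeasureTheory
open scoped MatrixGroups

namespace FermatAgent.LT2

open FermatAgent.LT

/-- The fields, the automorphism and the bad places. -/
structure Setup (K L : Type*) [Field K] [NumberField K] [Field L] [NumberField L] [Algebra K L]
    where
  /-- the automorphism -/
  τ : L ≃+* L
  twist : IsTwist K τ
  /-- the infinite places above -/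
  T : InfCycle τ
  /-- the infinite place below -/
  v : InfinitePlace K
  uniq : ∀ v' : InfinitePlace K, v' = v
  /-- a primitive cube root of unity -/
  ζ : K
  ζ_prim : IsPrimitiveRoot ζ 3
  /-- the place below -/
  b : HeightOneSpectrum (𝓞 L) → HeightOneSpectrum (𝓞 K)
  finite_fib : ∀ v, {w | b w = v}.Finite
  b_tau : ∀ w, b ((placeMap τ).symm w) = b w
  b_eq : ∀ w, (b w).asIdeal = w.asIdeal.under (𝓞 K)
  /-- the bad places -/
  S : Finset (HeightOneSpectrum (𝓞 K))
  three : ∀ v ∉ S, v.valuation K 3 = 1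
  unram : ∀ w, b w ∉ S → placeMap τ w = w →
    ∀ x : K, w.valuation L (algebraMap K L x) = (b w).valuation K x

namespace Setup

variable {K L : Type*} [Field K] [NumberField K] [Field L] [NumberField L] [Algebra K L]
  (C : Setup K L)

/-- The places split in the extension. -/
def IsSplit (v : HeightOneSpectrum (𝓞 K)) : Prop :=
  ∀ w, C.b w = v → placeMap C.τ w ≠ w

/-- The places above a place. -/
abbrev Fib (v : HeightOneSpectrum (𝓞 K)) : Type _ := {w // C.b w = v}

instance fintypeFib (v : HeightOneSpectrum (𝓞 K)) : Fintype (C.Fib v) :=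
  (C.finite_fib v).fintype

/-- The following place above. -/
def next {v : HeightOneSpectrum (𝓞 K)} (u : C.Fib v) : C.Fib v :=
  ⟨placeMap C.τ u.1, by
    have h := C.b_tau (placeMap C.τ u.1)
    rw [(placeMap C.τ).symm_apply_apply] at h
    exact h.symm.trans u.2⟩

end Setup

/-- A setting with levels, maximal away from the bad places. -/
structure Ctx (K L : Type*) [Field K] [NumberField K] [Field L] [NumberField L] [Algebra K L]
    extends Setup K L where
  /-- the level above -/
  UL : Level L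
  /-- the level below -/
  UK : Level K
  stable : ∀ w g, g2Map (τ : L →+* L) g ∈ UL.loc w ↔ g ∈ UL.loc ((placeMap τ).symm w)
  congrL : UL.IsCongr
  congrK : UK.IsCongr
  UL_else : ∀ w, b w ∉ S → UL.loc w = locK w
  UK_else : ∀ v ∉ S, UK.loc v = locK v
  incl_mem' : ∀ w g, g ∈ UK.loc (b w) → g2Map (algebraMap K L) g ∈ UL.loc w
  mem_of_incl' : ∀ w, placeMap τ w ≠ w →
    ∀ g, g2Map (algebraMap K L) g ∈ UL.loc w → g ∈ UK.loc (b w)

namespace Ctx

variable {K L : Type*} [Field K] [NumberField K] [Field L] [NumberField L] [Algebra K L]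
  (C : Ctx K L)

/-- The twisted context. -/
abbrev X : TwistCtx K L where
  τ := C.τ
  fix := C.twist.fix
  T := C.T
  v := C.v
  uniq := C.uniq
  UL := C.UL
  UK := C.UK
  stable := C.stable

/-- The places over places. -/
abbrev B : C.X.Over where
  b := C.b
  finite_fib := C.finite_fib
  b_tau := C.b_tau

/-- The cosets of the base seen above. -/
def up {v : HeightOneSpectrum (𝓞 K)} (u : C.Fib v) :
    TwistCtx.Pt C.X v → G2 L ⧸ C.UL.loc u.1 :=
  Quotient.map' (TwistCtx.incl (K := K) (L := L)) fun a b hab => by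
    rw [QuotientGroup.leftRel_apply] at hab ⊢
    rw [← map_inv, ← map_mul]
    exact C.incl_mem' u.1 _ (by rw [u.2]; exact hab)

open Classical in
/-- The bad places with one place above. -/
def badSingle : Finset (HeightOneSpectrum (𝓞 K)) := C.S.filter fun v => ¬C.IsSplit v

/-- Membership among the bad places with one place above. -/
lemma mem_badSingle {v : HeightOneSpectrum (𝓞 K)} :
    v ∈ C.badSingle ↔ v ∈ C.S ∧ ¬C.IsSplit v := by
  classical
  exact Finset.mem_filter

/-- Local gluing data at a place for given local kernels. -/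
structure LocGlue {v : HeightOneSpectrum (𝓞 K)} (kw : ∀ u : C.Fib v, LocKer C.UL u.1)
    (kv : LocKer C.UK v) (γ : G2 L) (δ : G2 K) (H : Subgroup (G2 K))
    (A : TwistCtx.Fam C.B v → TwistCtx.Pt C.X v → ℝ) : Prop where
  nonneg : ∀ x z, 0 ≤ A x z
  finite_x : ∀ z, {x : TwistCtx.Fam C.B v |
    (∏ u : C.Fib v, (kw u).k (TwistCtx.ft C.B γ v x u) (x u)) * A x z ≠ 0}.Finite
  sum_x : ∀ z, ∑' x : TwistCtx.Fam C.B v,
    (∏ u : C.Fib v, (kw u).k (TwistCtx.ft C.B γ v x u) (x u)) * A x z = kv.k (δ • z) z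
  sum_z : ∀ x : TwistCtx.Fam C.B v,
    (∏ u : C.Fib v, (kw u).k (TwistCtx.ft C.B γ v x u) (x u)) ≠ 0 → HasSum (A x) 1
  finite_z : ∀ x, {z | A x z ≠ 0}.Finite
  equiv : ∀ h ∈ H, ∀ x z, A (TwistCtx.actFam C.B h x) (h • z) = A x z

/-- The weights sit on boundedly many translates of the base by an element commuting with the
matrix. -/
def ExplicitAt {v : HeightOneSpectrum (𝓞 K)} (δ : GL (Fin 2) K)
    (A : TwistCtx.Fam C.B v → TwistCtx.Pt C.X v → ℝ) : Prop :=
  ∃ (t : GL (Fin 2) L) (Q : Finset (G2 L)), Commute t (upGL δ) ∧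
    ∀ x z, A x z ≠ 0 → ∀ g : G2 K, QuotientGroup.mk g = z → ∀ u : C.Fib v,
      ∃ q ∈ Q, x u = QuotientGroup.mk (ProjGenLinGroup.mk t * TwistCtx.incl g * q)

/-- The kernels at the bad places: idempotents above and below, and the kernels below which match
the idempotents above at the places with one place above. -/
structure Bad where
  /-- the idempotent above -/
  eL : ∀ w, LocKer C.UL w
  /-- the idempotent below -/
  eK : ∀ v, LocKer C.UK v
  eL_one : ∀ w, C.b w ∉ C.S → eL w = 1
  eK_one : ∀ v ∉ C.S, eK v = 1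
  eL_herm : ∀ w, (eL w).IsHerm
  eK_herm : ∀ v, (eK v).IsHerm
  eL_idem : ∀ w, eL w * eL w = eL w
  eK_idem : ∀ v, eK v * eK v = eK v
  eL_sg : ∀ w x y, (eL w).k ((LevelHom.ofAut C.stable).locMap w x)
    ((LevelHom.ofAut C.stable).locMap w y) = (eL ((placeMap C.τ).symm w)).k x y
  eL_up : ∀ v, C.IsSplit v → ∀ (u : C.Fib v) a b,
    (eL u.1).k (C.up u a) (C.up u b) = (eK v).k a b
  /-- the matching kernel below -/
  fK : ∀ v, LocKer C.UK v
  glue_one : ∀ v ∈ C.S, ¬C.IsSplit v →
    ∃ A, C.LocGlue (fun u : C.Fib v => eL u.1) (fK v) 1 1 ⊤ A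
  glue_rep : ∀ v ∈ C.S, ¬C.IsSplit v → ∀ (δ : GL (Fin 2) K) (γ : GL (Fin 2) L),
    (ProjGenLinGroup.mk δ : G2 K) ≠ 1 → IsRep C.τ δ γ →
      ∃ A, C.LocGlue (fun u : C.Fib v => eL u.1) (fK v) (ProjGenLinGroup.mk γ)
        (ProjGenLinGroup.mk δ) (torus δ) A ∧ C.ExplicitAt δ A
  norm_local : ∀ v ∈ C.S, ¬C.IsSplit v → ∀ (δ : GL (Fin 2) K) (z : TwistCtx.Pt C.X v),
    (fK v).k ((ProjGenLinGroup.mk δ : G2 K) • z) z ≠ 0 →
      (v.valuation K 3 = 1 ∧ (∃ d : G2 K ⧸ locK v, (ProjGenLinGroup.mk δ : G2 K) • d = d) ∧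
        CubeOK v δ) ∨ NearOne v δ

variable {C}

/-- Pairs of product kernels: arbitrary components at the split places, the given ones at the bad
places with one place above, trivial ones at the inert places. -/
structure Sys (D : C.Bad) where
  /-- the pair of kernels -/
  P : TwistCtx.KerPair C.B
  /-- the components at the split places, one for each place above -/
  kS : ∀ v, C.Fib v → LocKer C.UK v
  S_sub : C.S ⊆ P.T
  kS_one : ∀ v ∉ P.T, ∀ u, kS v u = 1
  kw_split : ∀ v, C.IsSplit v → ∀ (u : C.Fib v) a b,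
    (P.kw u.1).k (C.up u a) (C.up u b) = (kS v u).k a b
  kv_split : ∀ v, C.IsSplit v → ∀ u : C.Fib v,
    P.kv v = kS v u * (kS v (C.next u) * kS v (C.next (C.next u)))
  kw_good : ∀ w, ¬C.IsSplit (C.b w) → C.b w ∉ C.S → P.kw w = 1
  kv_good : ∀ v, ¬C.IsSplit v → v ∉ C.S → P.kv v = 1
  kw_bad : ∀ w, ¬C.IsSplit (C.b w) → C.b w ∈ C.S → P.kw w = D.eL w
  kv_bad : ∀ v ∈ C.S, ¬C.IsSplit v → P.kv v = D.fK v

namespace Sys

variable {D : C.Bad}

open Classical in
/-- `S'` is `S` with the kernel `k` put at one place over a split place where `S` is trivial. -/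
structure Inserted (S S' : Sys D) {v₀ : HeightOneSpectrum (𝓞 K)} (u₀ : C.Fib v₀)
    (k : LocKer C.UK v₀) : Prop where
  inf : S'.P.k = S.P.k
  T : S'.P.T = insert v₀ S.P.T
  other : ∀ v, v ≠ v₀ → ∀ u, S'.kS v u = S.kS v u
  one : ∀ u, S.kS v₀ u = 1
  at_u : S'.kS v₀ u₀ = k
  at_other : ∀ u, u ≠ u₀ → S'.kS v₀ u = 1

end Sys

end Ctx

end FermatAgent.LT2
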