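import Fermat.Agent.LT.Descent.Spec.Act
import Fermat.Agent.LT.Whit.Arch
import Fermat.Agent.LT2.Defs

/-!
# The functions which the descent moves

`IsEigenFun φ` says that `φ` is a bounded automorphic function of its level with the infinity type
of a weight one theta series.  `Spec.FixHyp D` is the hypothesis of the descent that such a
function, fixed by the idempotents of `D` and with Hecke eigenvalues invariant under the
automorphism, is itself invariant under the automorphism.
-/

set_option autoImplicit false

noncomputable section

open IsDedekindDomain NumberField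
open scoped MatrixGroups ContDiff

namespace FermatAgent.LT2

open FermatAgent.LT

/-- A function on the space of level `U` which is invariant under the global group, measurable and
bounded, and on which each radial operator at an infinite place acts by the integral `hT k` of its
profile `k` against the height: it has the radial eigenvalues of the height. -/
structure IsEigenFun {L : Type*} [Field L] [NumberField L] {U : Level L} (φ : Space U → ℂ) :
    Prop where
  inv : ∀ (g : G2 L) x, φ (g • x) = φ x
  meas : Measurable φ
  bdd : ∃ B, ∀ x, ‖φ x‖ ≤ B
  radial : ∀ (w : InfinitePlace L) (k : ℝ → ℝ), ContDiff ℝ ∞ k → HasCompactSupport k →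
    ∀ x, radialOp w (fun p q => k (H3.coshDist p q)) φ x = LT.Whit.hT k * φ x

namespace Spec

variable {K L : Type*} [Field K] [NumberField K] [Field L] [NumberField L] [Algebra K L]
  {C : Ctx K L}

/-- An eigenfunction of level `C.UL` fixed by the idempotents at the bad places, with Hecke
eigenvalues `cL` at the good places satisfying `cL (τ w) = cL w`, is invariant under `τ`. -/
def FixHyp (D : C.Bad) : Prop :=
  ∀ ψ : Space C.UL → ℂ, IsEigenFun ψ → ∀ cL : HeightOneSpectrum (𝓞 L) → ℂ,
    (∀ w, C.b w ∉ C.S → cL (placeMap C.τ w) = cL w) →
    (∀ w, C.b w ∉ C.S → ∀ x, heckeOp w ψ x = cL w * ψ x) →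
    (∀ w, C.b w ∈ C.S → ∀ x, finOp (D.eL w) ψ x = ψ x) →
    ∀ x, ψ (C.X.σ.map x) = ψ x

end Spec

end FermatAgent.LT2
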